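import Fermat.Agent.QuadraticRH.Primes
import Mathlib.Analysis.SpecialFunctions.Complex.LogBounds
import Mathlib.NumberTheory.Harmonic.Bounds

/-!
# Littlewood's bound for the value at `1 / q`

The logarithm of `L(1 / q, D)` is the series of the sums `S_n` over the points in degree `n`, each
at most `q ^ n` trivially and `2 g q ^ (n / 2)` by the Riemann hypothesis.
-/

set_option autoImplicit false
set_option linter.style.openClassical false
set_option linter.style.haveILetI false
set_option linter.unusedSectionVars false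

noncomputable section

open scoped Classical

namespace FA.LittlewoodFF

open Polynomial KurlbergRudnick QuadraticLFF QuadraticRH HyperellipticWeil

variable {k : Type*} [Field k] [Fintype k] {D : k[X]} {g : ℕ}

/-- The trivial bound. -/
theorem abs_powSum_le_pow (D : k[X]) {n : ℕ} (hn : n ≠ 0) :
    |(powSum D n : ℝ)| ≤ (Fintype.card k : ℝ) ^ n := by
  rw [← Nat.cast_pow, ← sum_natDegree_irrDvd (k := k) hn, powSum, ← irrDvd]
  push_cast
  refine (Finset.abs_sum_le_sum_abs _ _).trans (Finset.sum_le_sum fun P _ => ?_)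
  rw [abs_mul, abs_pow, Nat.abs_cast]
  refine mul_le_of_le_one_right (Nat.cast_nonneg _) (pow_le_one₀ (abs_nonneg _) ?_)
  rcases quadraticChar_isQuadratic k (resultant P D P.natDegree D.natDegree) with h | h | h <;>
    simp [lam, h]

/-- The series of the logarithm of a product of `1 - z`. -/
theorem hasSum_neg_log_norm_prod (s : Multiset ℂ) :
    (∀ z ∈ s, ‖z‖ < 1) → HasSum (fun n : ℕ => ((s.map (· ^ n)).sum / n).re)
      (-Real.log ‖(s.map fun z => 1 - z).prod‖) := by
  induction s using Multiset.induction with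
  | empty => intro _; simp [hasSum_zero]
  | cons a t ih =>
    intro hs
    have ha := hs a (Multiset.mem_cons_self a t)
    have ht : ∀ z ∈ t, ‖z‖ < 1 := fun z hz => hs z (Multiset.mem_cons_of_mem hz)
    have h1 : HasSum (fun n : ℕ => (a ^ n / n).re) (-Real.log ‖1 - a‖) := by
      have h := Complex.hasSum_re (Complex.hasSum_taylorSeries_neg_log ha)
      rwa [Complex.neg_re, Complex.log_re] at h
    have hne : ∀ z : ℂ, ‖z‖ < 1 → 1 - z ≠ 0 := fun z hz h => by
      rw [← sub_eq_zero.mp h, norm_one] at hz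
      exact lt_irrefl 1 hz
    simp only [Multiset.map_cons, Multiset.sum_cons, Multiset.prod_cons, norm_mul, add_div,
      Complex.add_re]
    have hp : (t.map fun z => 1 - z).prod ≠ 0 := Multiset.prod_ne_zero fun h => by
      obtain ⟨z, hz, hz0⟩ := Multiset.mem_map.mp h
      exact hne z (ht z hz) hz0
    rw [Real.log_mul (norm_ne_zero_iff.mpr (hne a ha)) (norm_ne_zero_iff.mpr hp), neg_add]
    exact h1.add (ih ht)

variable (hk : ringChar k ≠ 2) (hD : D.Monic) (hsq : Squarefree D)
  (hdeg : D.natDegree = 2 * g + 1)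
include hk hD hsq hdeg

/-- The series of `log L(1 / q, D)`. -/
theorem hasSum_log_value :
    HasSum (fun n : ℕ => (powSum D n : ℝ) / (n * (Fintype.card k : ℝ) ^ n))
      (Real.log (∑ n ∈ Finset.range (2 * g + 1),
        (coeffL D n : ℝ) * (Fintype.card k : ℝ)⁻¹ ^ n)) := by
  set q : ℝ := (Fintype.card k : ℝ) with hq
  set L := ∑ n ∈ Finset.range (2 * g + 1), (coeffL D n : ℝ) * q⁻¹ ^ n with hL
  have hq1 : 1 < q := by rw [hq]; exact_mod_cast Fintype.one_lt_card
  have hlt : ∀ z ∈ (lRoots D).map (· * (q : ℂ)⁻¹), ‖z‖ < 1 := fun z hz => by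
    obtain ⟨a, ha, rfl⟩ := Multiset.mem_map.mp hz
    rw [norm_mul, norm_inv, norm_lRoots_eq hk hD hsq hdeg ha, Complex.norm_real, Real.norm_eq_abs,
      abs_of_pos (zero_lt_one.trans hq1), ← hq, ← div_eq_mul_inv, div_lt_one (by linarith)]
    nlinarith [Real.mul_self_sqrt (show 0 ≤ q by linarith), Real.sqrt_nonneg q]
  have hprod : (((lRoots D).map (· * (q : ℂ)⁻¹)).map fun z => 1 - z).prod = (L : ℂ) := by
    rw [Multiset.map_map, hL]
    push_cast
    exact (sum_coeffL_mul_pow hk hD hsq hdeg _).symm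
  have h := hasSum_neg_log_norm_prod _ hlt
  rw [hprod, Complex.norm_real, Real.norm_eq_abs, Real.log_abs] at h
  have h2 := h.neg
  rw [neg_neg] at h2
  refine h2.congr_fun fun n => ?_
  rcases Nat.eq_zero_or_pos n with rfl | hn
  · simp
  rw [Multiset.map_map, Multiset.map_congr rfl fun a _ => show
    ((fun z : ℂ => z ^ n) ∘ fun z => z * (q : ℂ)⁻¹) a = a ^ n * ((q : ℂ)⁻¹) ^ n from mul_pow a _ n,
    Multiset.sum_map_mul_right,
    show ((lRoots D).map fun a => a ^ n).sum = -(powSum D n : ℂ) by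
      rw [powSum_eq_neg hk hD hsq (by omega) hn, neg_neg],
    show -(powSum D n : ℂ) * (q : ℂ)⁻¹ ^ n / (n : ℂ) =
      ((-(powSum D n : ℝ) * q⁻¹ ^ n / n : ℝ) : ℂ) by push_cast; ring, Complex.ofReal_re, inv_pow]
  field_simp

/-- **Littlewood's bound.** -/
theorem abs_log_value_le {N : ℕ} (hN : 1 ≤ N) (hgN : (2 * g) ^ 2 ≤ Fintype.card k ^ N) :
    |Real.log (∑ n ∈ Finset.range (2 * g + 1),
      (coeffL D n : ℝ) * (Fintype.card k : ℝ)⁻¹ ^ n)| ≤ 2 + Real.log N := by
  set q : ℝ := (Fintype.card k : ℝ) with hq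
  set r : ℝ := (Real.sqrt q)⁻¹ with hr
  set c : ℝ := 2 * g / (N + 1) with hc
  have h3 : 3 ≤ q := by
    have hodd := FiniteField.odd_card_of_char_ne_two hk
    have := Fintype.one_lt_card (α := k)
    rw [hq]
    exact_mod_cast (show 3 ≤ Fintype.card k by omega)
  have hs0 : 0 < Real.sqrt q := Real.sqrt_pos.mpr (by linarith)
  have hss : Real.sqrt q * Real.sqrt q = q := Real.mul_self_sqrt (by linarith)
  have hs : 5 / 3 ≤ Real.sqrt q := by nlinarith
  have hr0 : 0 < r := inv_pos.mpr hs0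
  have hr1 : r ≤ 3 / 5 := by
    rw [hr, show (3 : ℝ) / 5 = (5 / 3)⁻¹ by norm_num]
    exact inv_anti₀ (by norm_num) hs
  set b : ℕ → ℝ := fun n => if n ≤ N then (n : ℝ)⁻¹ else c * r ^ n with hb
  have htail : HasSum (fun m => b (m + (N + 1))) (c * r ^ (N + 1) * (1 - r)⁻¹) := by
    refine ((hasSum_geometric_of_lt_one hr0.le (by linarith)).mul_left _).congr_fun fun m => ?_
    simp only [hb, if_neg (show ¬ m + (N + 1) ≤ N by omega)]
    ring
  have hhead : ∑ n ∈ Finset.range (N + 1), b n ≤ 1 + Real.log N := by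
    refine le_of_eq_of_le ?_ (harmonic_le_one_add_log N)
    rw [Finset.sum_congr rfl fun n hn => show b n = (n : ℝ)⁻¹ from
      if_pos (Nat.lt_succ_iff.mp (Finset.mem_range.mp hn)), Finset.sum_range_succ']
    simp [harmonic]
  have hT : c * r ^ (N + 1) * (1 - r)⁻¹ ≤ 1 := by
    have hpow : 2 * (g : ℝ) * r ^ N ≤ 1 := by
      have hsN : 0 < Real.sqrt q ^ N := pow_pos hs0 N
      rw [hr, inv_pow, ← div_eq_mul_inv, div_le_one hsN]
      refine (pow_le_pow_iff_left₀ (by positivity) hsN.le two_ne_zero).mp ?_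
      rw [← pow_mul, mul_comm N 2, pow_mul, sq (Real.sqrt q), hss]
      rw [hq]
      exact_mod_cast hgN
    have hN2 : (2 : ℝ) ≤ N + 1 := by exact_mod_cast Nat.succ_le_succ hN
    rw [show c * r ^ (N + 1) * (1 - r)⁻¹ =
      2 * g * r ^ N * r / ((N + 1) * (1 - r)) by rw [hc]; field_simp; ring,
      div_le_one (by nlinarith)]
    nlinarith
  have hB : HasSum b (c * r ^ (N + 1) * (1 - r)⁻¹ + ∑ n ∈ Finset.range (N + 1), b n) :=
    (hasSum_nat_add_iff (f := b) (N + 1)).mp htail
  have hle : ∀ n, |(powSum D n : ℝ) / (n * q ^ n)| ≤ b n := fun n => by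
    rcases Nat.eq_zero_or_pos n with rfl | hn
    · simp [hb]
    have hn' : (0 : ℝ) < n := Nat.cast_pos.mpr hn
    have hqn : 0 < q ^ n := pow_pos (by linarith) n
    rw [abs_div, abs_of_pos (mul_pos hn' hqn)]
    by_cases hnN : n ≤ N
    · rw [hb]
      simp only [if_pos hnN]
      rw [div_le_iff₀ (mul_pos hn' hqn), inv_mul_cancel_left₀ hn'.ne']
      exact abs_powSum_le_pow D hn.ne'
    · simp only [hb, if_neg hnN]
      have hw := abs_powSum_le_sharp hk hD hsq (by omega) hn
      rw [hdeg, Nat.add_sub_cancel, ← hq] at hw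
      push_cast at hw
      have hsr : Real.sqrt q ^ n = r ^ n * q ^ n := by
        rw [← mul_pow, hr]
        congr 1
        rw [inv_mul_eq_div, eq_div_iff hs0.ne', hss]
      rw [div_le_iff₀ (mul_pos hn' hqn)]
      refine hw.trans ?_
      rw [hsr, hc]
      have hNn : ((N : ℝ) + 1) ≤ n := by exact_mod_cast Nat.lt_of_not_le hnN
      have hfac : 2 * (g : ℝ) ≤ 2 * g / (N + 1) * n := by
        rw [div_mul_eq_mul_div, le_div_iff₀ (by positivity)]
        exact mul_le_mul_of_nonneg_left hNn (by positivity)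
      calc 2 * (g : ℝ) * (r ^ n * q ^ n) ≤ 2 * g / (N + 1) * n * (r ^ n * q ^ n) :=
            mul_le_mul_of_nonneg_right hfac (by positivity)
        _ = _ := by ring
  have hL := hasSum_log_value hk hD hsq hdeg
  rw [abs_le]
  constructor
  · have h := hasSum_le (fun n => (abs_le.mp (hle n)).1) hB.neg hL
    linarith
  · have h := hasSum_le (fun n => (abs_le.mp (hle n)).2) hL hB
    linarith

/-- The bounds for the value at `1`. -/
theorem value_one_littlewood {N : ℕ} (hN : 1 ≤ N) (hgN : (2 * g) ^ 2 ≤ Fintype.card k ^ N) :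
    (Fintype.card k : ℝ) ^ g / (Real.exp 2 * N) ≤
        ∑ n ∈ Finset.range (2 * g + 1), (coeffL D n : ℝ) ∧
      ∑ n ∈ Finset.range (2 * g + 1), (coeffL D n : ℝ) ≤
        Real.exp 2 * N * (Fintype.card k : ℝ) ^ g := by
  have hpos := value_inv_pos hk hD hsq hdeg
  have hq : 0 < (Fintype.card k : ℝ) ^ g := pow_pos (Nat.cast_pos.mpr Fintype.card_pos) g
  have hN0 : (0 : ℝ) < N := Nat.cast_pos.mpr hN
  have hexp : Real.exp (2 + Real.log N) = Real.exp 2 * N := by rw [Real.exp_add, Real.exp_log hN0]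
  obtain ⟨h1, h2⟩ := abs_le.mp (abs_log_value_le hk hD hsq hdeg hN hgN)
  rw [value_one_eq hk hD hsq hdeg]
  constructor
  · rw [div_eq_mul_inv]
    refine mul_le_mul_of_nonneg_left ?_ hq.le
    rw [← hexp, ← Real.exp_neg, ← Real.exp_log hpos]
    exact Real.exp_le_exp.mpr h1
  · rw [mul_comm (Real.exp 2 * N)]
    refine mul_le_mul_of_nonneg_left ?_ hq.le
    rw [← hexp, ← Real.exp_log hpos]
    exact Real.exp_le_exp.mpr h2

end FA.LittlewoodFF
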